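import Fermat.Agent.S57.FreeOfRegular

set_option autoImplicit false

namespace Fermat.Agent.S57

open CategoryTheory RingTheory.Sequence IsLocalRing

section Main

variable {S : Type} [CommRing S] {φ : S →+* S}
  {N : Type} [AddCommGroup N] [Module S N] {d : ℕ} {b : Fin d → N}

theorem isWeaklyRegular_pi {rs : List S} (hreg : IsWeaklyRegular S rs) (d : ℕ) :
    IsWeaklyRegular (Fin d → S) rs := by
  have h1 : IsWeaklyRegular (TensorProduct S S (Fin d → S)) rs := hreg.isWeaklyRegular_rTensor
  exact (LinearEquiv.isWeaklyRegular_congr (TensorProduct.lid S (Fin d → S)) rs).mp h1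

theorem isWeaklyRegular_map_of_coordMap {rs : List S} (hreg : IsWeaklyRegular S rs)
    (b_span : ∀ x : N, ∃ c : Fin d → S, x = ∑ i, φ (c i) • b i)
    (b_rel : ∀ c : Fin d → S, ∑ i, φ (c i) • b i = 0 → ∀ i, c i = 0) :
    IsWeaklyRegular N (rs.map φ) := by
  let e : (Fin d → S) ≃+ N :=
    AddEquiv.ofBijective (coordMap φ b).toAddMonoidHom
      ⟨coordMap_injective b_rel, coordMap_surjective b_span⟩
  have h : List.Forall₂ (fun (r : S) (s : S) => ∀ x : Fin d → S, e (r • x) = s • e x)
      rs (rs.map φ) := by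
    rw [List.forall₂_map_right_iff]
    exact List.forall₂_same.mpr fun r _ x => (coordMap φ b).map_smulₛₗ r x
  exact (AddEquiv.isWeaklyRegular_congr h).mp (isWeaklyRegular_pi hreg d)

/-- the residual surjection from a finite product of residue fields -/
theorem isArtinian_quotient_of_coordMap [IsLocalRing S] {rs : List S}
    (hmax : Ideal.ofList rs = maximalIdeal S)
    (b_span : ∀ x : N, ∃ c : Fin d → S, x = ∑ i, φ (c i) • b i) :
    IsArtinian S (N ⧸ (Ideal.ofList (rs.map φ) • (⊤ : Submodule S N))) := by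
  set Q := N ⧸ (Ideal.ofList (rs.map φ) • (⊤ : Submodule S N)) with hQ
  have hφmem : ∀ c ∈ maximalIdeal S, φ c ∈ Ideal.ofList (rs.map φ) := by
    intro c hc
    rw [← hmax] at hc
    rw [← Ideal.map_ofList]
    exact Ideal.mem_map_of_mem φ hc
  -- componentwise maps
  let g0 : Fin d → (S →ₛₗ[φ] Q) := fun i =>
    { toFun := fun c => φ c • Submodule.Quotient.mk (b i)
      map_add' := fun c c' => by simp only [map_add, add_smul]
      map_smul' := fun s c => by simp only [smul_eq_mul, map_mul, mul_smul] }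
  have hg0 : ∀ i, maximalIdeal S ≤ LinearMap.ker (g0 i) := by
    intro i c hc
    rw [LinearMap.mem_ker]
    show φ c • Submodule.Quotient.mk (b i) = (0 : Q)
    rw [← Submodule.Quotient.mk_smul, Submodule.Quotient.mk_eq_zero]
    exact Submodule.smul_mem_smul (hφmem c hc) Submodule.mem_top
  let g : Fin d → ((S ⧸ maximalIdeal S) →ₛₗ[φ] Q) := fun i =>
    Submodule.liftQ (maximalIdeal S) (g0 i) (hg0 i)
  let G : (Fin d → S ⧸ maximalIdeal S) →ₛₗ[φ] Q :=
    ∑ i, (g i).comp (LinearMap.proj i : (Fin d → S ⧸ maximalIdeal S) →ₗ[S] _)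
  have hG : Function.Surjective G := by
    intro q
    obtain ⟨x, rfl⟩ := Submodule.Quotient.mk_surjective _ q
    obtain ⟨c, hc⟩ := b_span x
    refine ⟨fun i => Submodule.Quotient.mk (c i), ?_⟩
    rw [hc]
    simp only [G, LinearMap.sum_apply, LinearMap.comp_apply, LinearMap.proj_apply, g,
      Submodule.liftQ_apply]
    rw [← Submodule.mkQ_apply, map_sum]
    rfl
  have hA : IsArtinian S (S ⧸ maximalIdeal S) := isArtinian_quot_maximalIdeal S
  exact isArtinian_of_surjective_semilinear G hG

theorem hasProjectiveDimensionLE_residueField [IsLocalRing S] [IsNoetherianRing S]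
    {rs : List S} (hreg : IsWeaklyRegular S rs) (hmax : Ideal.ofList rs = maximalIdeal S) :
    HasProjectiveDimensionLE (ModuleCat.of S (S ⧸ maximalIdeal S)) rs.length := by
  have hmem : ∀ r ∈ rs, r ∈ maximalIdeal S := by
    intro r hr
    rw [← hmax]
    exact Ideal.subset_span hr
  have hR : IsRegular S rs := IsRegular.of_isWeaklyRegular_of_mem_maximalIdeal S hmem hreg
  have h1 := ModuleCat.projectiveDimension_quotient_eq_length.{0} rs hR
  have h2 : HasProjectiveDimensionLE
      (ModuleCat.of S (Shrink.{0} (S ⧸ Ideal.ofList rs))) rs.length := by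
    rw [← projectiveDimension_le_iff, h1]
  let e : Shrink.{0} (S ⧸ Ideal.ofList rs) ≃ₗ[S] (S ⧸ maximalIdeal S) :=
    (Shrink.linearEquiv S _).trans (Submodule.quotEquivOfEq _ _ hmax)
  exact ModuleCat.hasProjectiveDimensionLE_of_linearEquiv
    (M := ModuleCat.of S (Shrink.{0} (S ⧸ Ideal.ofList rs)))
    (N := ModuleCat.of S (S ⧸ maximalIdeal S)) e rs.length

theorem free_of_regular_of_semilinear_basis [IsLocalRing S] [IsNoetherianRing S]
    [Nontrivial N] {rs : List S} (hreg : IsWeaklyRegular S rs)
    (hmax : Ideal.ofList rs = maximalIdeal S)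
    (hφ : ∀ x ∈ rs, φ x ∈ maximalIdeal S)
    (b_span : ∀ x : N, ∃ c : Fin d → S, x = ∑ i, φ (c i) • b i)
    (b_rel : ∀ c : Fin d → S, ∑ i, φ (c i) • b i = 0 → ∀ i, c i = 0) :
    Module.Free S N := by
  have hfin : Module.Finite S N :=
    Module.Finite.of_surjective (coordMap φ b) (coordMap_surjective b_span)
  have hregN : IsWeaklyRegular N (rs.map φ) :=
    isWeaklyRegular_map_of_coordMap hreg b_span b_rel
  have hmemN : ∀ r ∈ rs.map φ, r ∈ maximalIdeal S := by
    intro r hr
    obtain ⟨x, hx, rfl⟩ := List.mem_map.mp hr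
    exact hφ x hx
  have hpd := ModuleCat.projectiveDimension_quotient_eq_add_length_of_isWeaklyRegular
    (ModuleCat.of S N) (rs.map φ) hregN hmemN
  have hart : IsArtinian S (N ⧸ (Ideal.ofList (rs.map φ) • (⊤ : Submodule S N))) :=
    isArtinian_quotient_of_coordMap hmax b_span
  have hnoeth : IsNoetherian S (N ⧸ (Ideal.ofList (rs.map φ) • (⊤ : Submodule S N))) :=
    inferInstance
  have hfl : IsFiniteLength S (N ⧸ (Ideal.ofList (rs.map φ) • (⊤ : Submodule S N))) :=
    isFiniteLength_iff_isNoetherian_isArtinian.mpr ⟨hnoeth, hart⟩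
  have hle := hasProjectiveDimensionLE_of_isFiniteLength rs.length
    (hasProjectiveDimensionLE_residueField hreg hmax) _ hfl
  rw [← projectiveDimension_le_iff] at hle
  have hle' : projectiveDimension (ModuleCat.of S N) + (rs.length : ℕ) ≤
      (0 : WithBot ℕ∞) + (rs.length : ℕ) := by
    rw [zero_add]
    rw [List.length_map] at hpd
    rw [← hpd]
    exact hle
  rw [ENat.WithBot.add_le_add_natCast_right_iff] at hle'
  have h0 : HasProjectiveDimensionLE (ModuleCat.of S N) 0 := by
    rw [← projectiveDimension_le_iff]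
    exact_mod_cast hle'
  have hproj : Projective (ModuleCat.of S N) :=
    (projective_iff_hasProjectiveDimensionLE_zero _).mpr h0
  have hproj' : Module.Projective S N := (IsProjective.iff_projective N).mpr hproj
  exact Module.free_of_flat_of_isLocalRing

end Main

end Fermat.Agent.S57
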