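import Fermat.Agent.S57.PowerSeriesRegular

set_option autoImplicit false

namespace Fermat.Agent.S57

open MvPowerSeries RingTheory.Sequence

variable {A : Type*} [CommRing A] {r : ℕ}

/-- the list of variables -/
noncomputable def varList (A : Type*) [CommRing A] (r : ℕ) : List (MvPowerSeries (Fin r) A) :=
  List.ofFn (fun i : Fin r => (X i : MvPowerSeries (Fin r) A))

/-- the variables followed by a constant -/
noncomputable def paramList (A : Type*) [CommRing A] (r : ℕ) (ϖ : A) :
    List (MvPowerSeries (Fin r) A) :=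
  varList A r ++ [C ϖ]

theorem varList_length : (varList A r).length = r := by
  simp [varList]

theorem paramList_length (ϖ : A) : (paramList A r ϖ).length = r + 1 := by
  simp [paramList, varList_length]

theorem ofList_take_varList (i : ℕ) (hi : i ≤ r) :
    Ideal.ofList ((varList A r).take i) = lowIdeal A r i := by
  rw [lowIdeal_eq_span i hi]
  unfold Ideal.ofList
  congr 1
  ext f
  simp only [Set.mem_ofPred_eq, List.mem_take_iff_getElem, varList, List.length_ofFn,
    List.getElem_ofFn]
  constructor
  · rintro ⟨j, hj, rfl⟩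
    exact ⟨⟨j, (lt_min_iff.mp hj).2⟩, (lt_min_iff.mp hj).1, rfl⟩
  · rintro ⟨j, hj, rfl⟩
    exact ⟨j.val, lt_min_iff.mpr ⟨hj, j.isLt⟩, rfl⟩

theorem ofList_varList : Ideal.ofList (varList A r) = lowIdeal A r r := by
  have h := ofList_take_varList (A := A) r le_rfl
  rwa [List.take_of_length_le (le_of_eq varList_length)] at h

theorem isWeaklyRegular_varList :
    IsWeaklyRegular (MvPowerSeries (Fin r) A) (varList A r) := by
  rw [isWeaklyRegular_iff]
  intro i hi
  have hir : i < r := by rwa [varList_length] at hi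
  rw [isSMulRegular_quotient_iff_mem_of_smul_mem]
  intro f hf
  simp only [smul_eq_mul, Ideal.mul_top, ofList_take_varList i hir.le] at hf ⊢
  have hX : (varList A r)[i] = X (⟨i, hir⟩ : Fin r) := by
    simp [varList]
  rw [hX] at hf
  exact X_mul_mem_lowIdeal (k := ⟨i, hir⟩) hf

theorem isWeaklyRegular_paramList {ϖ : A} (hϖ : IsSMulRegular A ϖ) :
    IsWeaklyRegular (MvPowerSeries (Fin r) A) (paramList A r ϖ) := by
  unfold paramList
  rw [isWeaklyRegular_append_iff]
  refine ⟨isWeaklyRegular_varList, ?_⟩
  rw [isWeaklyRegular_singleton_iff, isSMulRegular_quotient_iff_mem_of_smul_mem]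
  intro f hf
  simp only [smul_eq_mul, Ideal.mul_top, ofList_varList, mem_lowIdeal_top] at hf ⊢
  rw [map_mul, constantCoeff_C] at hf
  exact hϖ.right_eq_zero_of_smul hf

theorem ofList_paramList_eq_maximalIdeal [IsLocalRing A] {ϖ : A}
    (hϖ : IsLocalRing.maximalIdeal A = Ideal.span {ϖ}) :
    Ideal.ofList (paramList A r ϖ) = IsLocalRing.maximalIdeal (MvPowerSeries (Fin r) A) := by
  unfold paramList
  rw [Ideal.ofList_append, ofList_varList, Ideal.ofList_singleton]
  have hϖm : ϖ ∈ IsLocalRing.maximalIdeal A := by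
    rw [hϖ]; exact Ideal.mem_span_singleton_self ϖ
  apply le_antisymm
  · rw [sup_le_iff]
    constructor
    · intro f hf
      rw [mem_lowIdeal_top] at hf
      rw [IsLocalRing.mem_maximalIdeal, mem_nonunits_iff, isUnit_iff_constantCoeff, hf]
      exact not_isUnit_zero
    · rw [Ideal.span_singleton_le_iff_mem, IsLocalRing.mem_maximalIdeal, mem_nonunits_iff,
        isUnit_iff_constantCoeff, constantCoeff_C]
      exact (IsLocalRing.mem_maximalIdeal _).mp hϖm
  · intro f hf
    rw [IsLocalRing.mem_maximalIdeal, mem_nonunits_iff, isUnit_iff_constantCoeff] at hf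
    have hc : constantCoeff f ∈ IsLocalRing.maximalIdeal A :=
      (IsLocalRing.mem_maximalIdeal _).mpr hf
    rw [hϖ, Ideal.mem_span_singleton'] at hc
    obtain ⟨a, ha⟩ := hc
    have h1 : f - C (constantCoeff f) ∈ lowIdeal A r r := by
      rw [mem_lowIdeal_top, map_sub, constantCoeff_C, sub_self]
    have h2 : C (constantCoeff f) ∈ Ideal.span {(C ϖ : MvPowerSeries (Fin r) A)} := by
      rw [← ha, map_mul]
      exact Ideal.mul_mem_left _ _ (Ideal.mem_span_singleton_self _)
    have := Ideal.add_mem _ (Ideal.mem_sup_left h1 : f - C (constantCoeff f) ∈ _)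
      (Ideal.mem_sup_right h2)
    simpa using this

theorem paramList_mem_maximalIdeal [IsLocalRing A] {ϖ : A}
    (hϖ : IsLocalRing.maximalIdeal A = Ideal.span {ϖ}) :
    ∀ x ∈ paramList A r ϖ, x ∈ IsLocalRing.maximalIdeal (MvPowerSeries (Fin r) A) := by
  intro x hx
  rw [← ofList_paramList_eq_maximalIdeal hϖ]
  exact Ideal.subset_span hx

end Fermat.Agent.S57
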