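import Mathlib.RingTheory.Regular.ProjectiveDimension
import Mathlib.RingTheory.Regular.Flat
import Mathlib.RingTheory.FiniteLength
import Mathlib.RingTheory.LocalRing.Length

set_option autoImplicit false

namespace Fermat.Agent.S57

open CategoryTheory RingTheory.Sequence IsLocalRing

/-- The residue field of a local ring is an Artinian module. -/
theorem isArtinian_quot_maximalIdeal (S : Type*) [CommRing S] [IsLocalRing S] :
    IsArtinian S (S ⧸ maximalIdeal S) := by
  have : IsSimpleModule S (S ⧸ maximalIdeal S) :=
    isSimpleModule_iff_quot_maximal.mpr ⟨_, inferInstance, ⟨LinearEquiv.refl _ _⟩⟩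
  infer_instance

/-- A surjective semilinear map transports the Artinian property. -/
theorem isArtinian_of_surjective_semilinear {R S : Type*} [Ring R] [Ring S] {σ : R →+* S}
    {M P : Type*} [AddCommGroup M] [Module R M] [AddCommGroup P] [Module S P]
    (f : M →ₛₗ[σ] P) (hf : Function.Surjective f) [IsArtinian R M] : IsArtinian S P := by
  have hinj : Function.Injective (Submodule.comap f : Submodule S P → Submodule R M) := by
    intro p q hpq
    ext x
    obtain ⟨z, rfl⟩ := hf x
    have := SetLike.ext_iff.mp hpq z
    simpa using this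
  have hmono : StrictMono (Submodule.comap f : Submodule S P → Submodule R M) :=
    Monotone.strictMono_of_injective (fun _ _ h => Submodule.comap_mono h) hinj
  exact hmono.wellFoundedLT

/-- Modules of finite length over a local ring have projective dimension bounded by that of the
residue field. -/
theorem hasProjectiveDimensionLE_of_isFiniteLength {S : Type} [CommRing S] [IsLocalRing S]
    (n : ℕ) (hk : HasProjectiveDimensionLE (ModuleCat.of S (S ⧸ maximalIdeal S)) n)
    (L : Type) [AddCommGroup L] [Module S L] (hL : IsFiniteLength S L) :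
    HasProjectiveDimensionLE (ModuleCat.of S L) n := by
  induction hL with
  | @of_subsingleton M _ _ _ =>
    have := (ModuleCat.isZero_of_subsingleton (ModuleCat.of S M)).hasProjectiveDimensionLT_zero
    exact hasProjectiveDimensionLT_of_ge _ 0 _ (Nat.zero_le _)
  | @of_simple_quotient M _ _ N hsimple hN ih =>
    obtain ⟨I, hI, ⟨e⟩⟩ := isSimpleModule_iff_quot_maximal.mp hsimple
    obtain rfl := eq_maximalIdeal hI
    let T : ShortComplex (ModuleCat.{0} S) := (N.mkQ).shortComplexKer
    have hT : T.ShortExact := LinearMap.shortExact_shortComplexKer N.mkQ_surjective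
    have h1 : HasProjectiveDimensionLE T.X₁ n := by
      have e1 : N ≃ₗ[S] LinearMap.ker N.mkQ := LinearEquiv.ofEq _ _ (Submodule.ker_mkQ N).symm
      exact ModuleCat.hasProjectiveDimensionLE_of_linearEquiv
        (M := ModuleCat.of S N) (N := T.X₁) e1 n
    have h3 : HasProjectiveDimensionLE T.X₃ n :=
      ModuleCat.hasProjectiveDimensionLE_of_linearEquiv
        (M := ModuleCat.of S (S ⧸ maximalIdeal S)) (N := T.X₃) e.symm n
    exact hT.hasProjectiveDimensionLT_X₂ (n + 1) h1 h3

end Fermat.Agent.S57

namespace Fermat.Agent.S57

open CategoryTheory RingTheory.Sequence IsLocalRing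

section Main

variable {S : Type} [CommRing S] (φ : S →+* S)
  {N : Type} [AddCommGroup N] [Module S N] {d : ℕ} (b : Fin d → N)

/-- The `φ`-semilinear coordinate map attached to a family `b`. -/
def coordMap : (Fin d → S) →ₛₗ[φ] N where
  toFun c := ∑ i, φ (c i) • b i
  map_add' c c' := by
    simp only [Pi.add_apply, map_add, add_smul, Finset.sum_add_distrib]
  map_smul' s c := by
    simp only [Pi.smul_apply, smul_eq_mul, map_mul, mul_smul, Finset.smul_sum]

@[simp]
theorem coordMap_apply (c : Fin d → S) : coordMap φ b c = ∑ i, φ (c i) • b i := rfl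

variable {φ b}

theorem coordMap_surjective (b_span : ∀ x : N, ∃ c : Fin d → S, x = ∑ i, φ (c i) • b i) :
    Function.Surjective (coordMap φ b) := by
  intro x
  obtain ⟨c, hc⟩ := b_span x
  exact ⟨c, hc.symm⟩

theorem coordMap_injective
    (b_rel : ∀ c : Fin d → S, ∑ i, φ (c i) • b i = 0 → ∀ i, c i = 0) :
    Function.Injective (coordMap φ b) := by
  intro c c' h
  have h0 : coordMap φ b (c - c') = 0 := by
    rw [map_sub, h, sub_self]
  have := b_rel (c - c') h0
  ext i
  have hi := this i
  rw [Pi.sub_apply, sub_eq_zero] at hi
  exact hi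

end Main

end Fermat.Agent.S57
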