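import Fermat.Prelude.Def_Algebra_PatchingDatum
import Mathlib.RingTheory.Ideal.Operations
import Mathlib.LinearAlgebra.FreeModule.Basic
import Mathlib.LinearAlgebra.Basis.Basic
import Mathlib.Algebra.Module.Torsion.Basic

/-!
# S57: deduction of the three conclusions from freeness of the patched module

If the patched module `L.N` is free over the power series ring, then `M` is free and faithful
over `R` and `ker ψ` is generated by the `φ (X i)`.
-/

set_option autoImplicit false

namespace Fermat.Agent.S57.OfFree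

open Algebra

variable {𝒪 : Type} [CommRing 𝒪] {r : ℕ} {R : Type} [CommRing R] [Algebra 𝒪 R]
  {M : Type} [AddCommGroup M] [Module R M]

/-- The ideal generated by the images `φ (X i)`. -/
noncomputable def relIdeal (L : Algebra.PatchingLevel 𝒪 r R M ⊥) : Ideal (MvPowerSeries (Fin r) 𝒪) :=
  Ideal.span (Set.range fun i : Fin r => L.φ (MvPowerSeries.X i))

theorem relIdeal_le_ker (L : Algebra.PatchingLevel 𝒪 r R M ⊥) :
    relIdeal L ≤ RingHom.ker L.ψ := by
  unfold relIdeal
  rw [Ideal.span_le]
  rintro _ ⟨i, rfl⟩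
  exact L.ψ_φ_X i

theorem mem_relIdeal_smul_top_iff (L : Algebra.PatchingLevel 𝒪 r R M ⊥)
    {ι : Type*} (e : Module.Basis ι (MvPowerSeries (Fin r) 𝒪) L.N) (x : L.N) :
    x ∈ relIdeal L • (⊤ : Submodule (MvPowerSeries (Fin r) 𝒪) L.N) ↔
      ∀ j, e.repr x j ∈ relIdeal L := by
  rw [← e.span_eq, Submodule.mem_ideal_smul_span_iff_exists_sum]
  constructor
  · rintro ⟨a, ha, rfl⟩ j
    have : e.repr (a.sum fun i c => c • e i) = a := by
      have h := e.repr_linearCombination a
      simpa [Finsupp.linearCombination_apply] using h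
    rw [this]
    exact ha j
  · intro h
    refine ⟨e.repr x, h, ?_⟩
    have := e.linearCombination_repr x
    simpa [Finsupp.linearCombination_apply] using this

theorem π_eq_zero_iff (L : Algebra.PatchingLevel 𝒪 r R M ⊥)
    {ι : Type*} (e : Module.Basis ι (MvPowerSeries (Fin r) 𝒪) L.N) (x : L.N) :
    L.π x = 0 ↔ ∀ j, e.repr x j ∈ relIdeal L := by
  rw [L.ker_π x]
  exact mem_relIdeal_smul_top_iff L e x

theorem ker_ψ_le_relIdeal (L : Algebra.PatchingLevel 𝒪 r R M ⊥)
    {ι : Type*} [Nonempty ι] (e : Module.Basis ι (MvPowerSeries (Fin r) 𝒪) L.N) :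
    RingHom.ker L.ψ ≤ relIdeal L := by
  classical
  intro f hf
  obtain ⟨j⟩ := ‹Nonempty ι›
  have h0 : L.π (f • e j) = 0 := by
    rw [L.π_smul, (RingHom.mem_ker).mp hf, zero_smul]
  have h1 := (π_eq_zero_iff L e (f • e j)).mp h0 j
  simpa using h1

/-- The three conclusions of S57, assuming the patched module is free. -/
theorem result_of_free [Nontrivial M] (L : Algebra.PatchingLevel 𝒪 r R M ⊥)
    (hfree : Module.Free (MvPowerSeries (Fin r) 𝒪) L.N) :
    Module.Free R M ∧ Module.annihilator R M = ⊥ ∧
      RingHom.ker L.ψ = Ideal.span (Set.range fun i : Fin r => L.φ (MvPowerSeries.X i)) := by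
  classical
  let P := MvPowerSeries (Fin r) 𝒪
  let ι := Module.Free.ChooseBasisIndex P L.N
  let e : Module.Basis ι P L.N := Module.Free.chooseBasis P L.N
  -- `N` is nontrivial, hence the index type is nonempty
  have hNnt : Nontrivial L.N := by
    obtain ⟨m, hm⟩ := exists_ne (0 : M)
    obtain ⟨x, rfl⟩ := L.π_surjective m
    exact ⟨⟨x, 0, fun h => hm (by rw [h, map_zero])⟩⟩
  have hι : Nonempty ι := by
    by_contra hne
    rw [not_nonempty_iff] at hne
    have : Subsingleton L.N := e.repr.toEquiv.subsingleton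
    exact not_subsingleton L.N this
  have hker : RingHom.ker L.ψ = relIdeal L :=
    le_antisymm (ker_ψ_le_relIdeal L e) (relIdeal_le_ker L)
  -- the candidate basis of `M`
  let v : ι → M := fun j => L.π (e j)
  have hπsum : ∀ (t : Finset ι) (a : ι → P),
      L.π (∑ i ∈ t, a i • e i) = ∑ i ∈ t, L.ψ (a i) • v i := by
    intro t a
    rw [map_sum]
    exact Finset.sum_congr rfl fun i _ => L.π_smul _ _
  have hli : LinearIndependent R v := by
    rw [linearIndependent_iff']
    intro t g hg j hj
    choose s hs using L.ψ_surjective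
    have h0 : L.π (∑ i ∈ t, s (g i) • e i) = 0 := by
      rw [hπsum]
      simpa only [hs] using hg
    have h1 := (π_eq_zero_iff L e _).mp h0 j
    have h2 : e.repr (∑ i ∈ t, s (g i) • e i) j = s (g j) := by
      rw [map_sum, Finsupp.finsetSum_apply]
      simp only [map_smul, Module.Basis.repr_self, Finsupp.smul_apply, smul_eq_mul,
        Finsupp.single_apply, mul_ite, mul_one, mul_zero]
      rw [Finset.sum_ite_eq' t j]
      simp [hj]
    rw [h2] at h1
    have h3 := relIdeal_le_ker L h1
    rw [RingHom.mem_ker, hs] at h3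
    exact h3
  have hsp : ⊤ ≤ Submodule.span R (Set.range v) := by
    intro m _
    obtain ⟨x, rfl⟩ := L.π_surjective m
    have hx : x = ∑ i ∈ (e.repr x).support, e.repr x i • e i := by
      conv_lhs => rw [← e.linearCombination_repr x]
      rw [Finsupp.linearCombination_apply, Finsupp.sum]
    rw [hx, hπsum]
    exact Submodule.sum_mem _ fun i _ =>
      Submodule.smul_mem _ _ (Submodule.subset_span (Set.mem_range_self i))
  refine ⟨Module.Free.of_basis (Module.Basis.mk hli hsp), ?_, hker⟩
  rw [eq_bot_iff]
  intro c hc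
  rw [Module.mem_annihilator] at hc
  obtain ⟨j⟩ := hι
  have := linearIndependent_iff'.mp hli {j} (fun _ => c) (by simpa using hc (v j)) j
    (Finset.mem_singleton_self j)
  simpa using this

end Fermat.Agent.S57.OfFree

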