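import Mathlib.RingTheory.MvPowerSeries.Basic
import Mathlib.RingTheory.MvPowerSeries.Inverse
import Mathlib.RingTheory.Regular.RegularSequence
import Mathlib.RingTheory.DiscreteValuationRing.Basic

set_option autoImplicit false

namespace Fermat.Agent.S57

open MvPowerSeries

variable {A : Type*} [CommRing A] {r : ℕ}

/-- The ideal of power series all of whose coefficients at monomials not involving the
first `i` variables vanish. -/
def lowIdeal (A : Type*) [CommRing A] (r i : ℕ) : Ideal (MvPowerSeries (Fin r) A) where
  carrier := {f | ∀ m : Fin r →₀ ℕ, (∀ j : Fin r, j.val < i → m j = 0) → coeff m f = 0}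
  add_mem' := by
    intro f g hf hg m hm
    simp [hf m hm, hg m hm]
  zero_mem' := by
    intro m _
    simp
  smul_mem' := by
    classical
    intro c f hf m hm
    rw [smul_eq_mul, coeff_mul]
    refine Finset.sum_eq_zero ?_
    rintro ⟨a, b⟩ hab
    simp only [Finset.mem_antidiagonal] at hab
    have hb : ∀ j : Fin r, j.val < i → b j = 0 := by
      intro j hj
      have h := hm j hj
      rw [← hab, Finsupp.add_apply] at h
      exact Nat.eq_zero_of_add_eq_zero_left h
    simp [hf b hb]

theorem mem_lowIdeal {i : ℕ} {f : MvPowerSeries (Fin r) A} :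
    f ∈ lowIdeal A r i ↔
      ∀ m : Fin r →₀ ℕ, (∀ j : Fin r, j.val < i → m j = 0) → coeff m f = 0 :=
  Iff.rfl

theorem X_mem_lowIdeal {i : ℕ} (j : Fin r) (hj : j.val < i) :
    (X j : MvPowerSeries (Fin r) A) ∈ lowIdeal A r i := by
  classical
  intro m hm
  rw [coeff_X]
  split_ifs with h
  · exfalso
    have := hm j hj
    rw [h] at this
    simp at this
  · rfl

theorem lowIdeal_mono {i i' : ℕ} (h : i ≤ i') : lowIdeal A r i ≤ lowIdeal A r i' := by
  intro f hf m hm
  exact hf m (fun j hj => hm j (lt_of_lt_of_le hj h))

theorem span_le_lowIdeal (i : ℕ) :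
    Ideal.span {f : MvPowerSeries (Fin r) A | ∃ j : Fin r, j.val < i ∧ X j = f} ≤
      lowIdeal A r i := by
  rw [Ideal.span_le]
  rintro f ⟨j, hj, rfl⟩
  exact X_mem_lowIdeal j hj

theorem lowIdeal_le_span (i : ℕ) (hi : i ≤ r) :
    lowIdeal A r i ≤
      Ideal.span {f : MvPowerSeries (Fin r) A | ∃ j : Fin r, j.val < i ∧ X j = f} := by
  classical
  induction i with
  | zero =>
    intro f hf
    have : f = 0 := by
      ext m
      simpa using hf m (fun j hj => absurd hj (Nat.not_lt_zero _))
    rw [this]
    exact Ideal.zero_mem _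
  | succ i ih =>
    intro f hf
    have hir : i < r := hi
    set k : Fin r := ⟨i, hir⟩ with hk
    -- the part of `f` divisible by `X k`
    obtain ⟨g, hg⟩ : ∃ g : MvPowerSeries (Fin r) A,
        ∀ m, coeff m g = coeff (m + Finsupp.single k 1) f :=
      ⟨fun m => coeff (m + Finsupp.single k 1) f, fun m => rfl⟩
    have hXg : ∀ m : Fin r →₀ ℕ, coeff m (X k * g) = if m k = 0 then 0 else coeff m f := by
      intro m
      by_cases hmk : m k = 0
      · rw [if_pos hmk]
        have : (X k : MvPowerSeries (Fin r) A) ∣ X k * g := Dvd.intro _ rfl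
        exact (X_dvd_iff.mp this) m hmk
      · rw [if_neg hmk]
        have hm' : m = Finsupp.single k 1 + (m - Finsupp.single k 1) := by
          ext t
          by_cases ht : t = k
          · subst ht
            simp only [Finsupp.coe_add, Finsupp.coe_tsub, Pi.add_apply, Pi.sub_apply,
              Finsupp.single_eq_same]
            omega
          · simp [Finsupp.single_eq_of_ne ht]
        have h1 : coeff (Finsupp.single k 1 + (m - Finsupp.single k 1))
            (monomial (Finsupp.single k 1) (1 : A) * g) = 1 * coeff (m - Finsupp.single k 1) g :=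
          coeff_add_monomial_mul _ _ _ _
        rw [← hm', ← X_def, one_mul] at h1
        rw [h1, hg, add_comm, ← hm']
    have hf0 : f - X k * g ∈ lowIdeal A r i := by
      intro m hm
      rw [map_sub, hXg]
      split_ifs with hmk
      · rw [sub_zero]
        apply hf m
        intro j hj
        rcases Nat.lt_succ_iff_lt_or_eq.mp hj with h | h
        · exact hm j h
        · have : j = k := Fin.ext h
          rw [this]
          exact hmk
      · exact sub_self _
    have h1 := ih (Nat.le_of_succ_le hi) hf0
    have hmono : Ideal.span {f : MvPowerSeries (Fin r) A | ∃ j : Fin r, j.val < i ∧ X j = f} ≤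
        Ideal.span {f : MvPowerSeries (Fin r) A | ∃ j : Fin r, j.val < i + 1 ∧ X j = f} := by
      apply Ideal.span_mono
      rintro f ⟨j, hj, rfl⟩
      exact ⟨j, Nat.lt_succ_of_lt hj, rfl⟩
    have h2 : X k * g ∈
        Ideal.span {f : MvPowerSeries (Fin r) A | ∃ j : Fin r, j.val < i + 1 ∧ X j = f} := by
      apply Ideal.mul_mem_right
      apply Ideal.subset_span
      exact ⟨k, Nat.lt_succ_self i, rfl⟩
    have := Ideal.add_mem _ (hmono h1) h2
    simpa using this

theorem lowIdeal_eq_span (i : ℕ) (hi : i ≤ r) :
    lowIdeal A r i =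
      Ideal.span {f : MvPowerSeries (Fin r) A | ∃ j : Fin r, j.val < i ∧ X j = f} :=
  le_antisymm (lowIdeal_le_span i hi) (span_le_lowIdeal i)

/-- `X k` is regular modulo the ideal generated by the earlier variables. -/
theorem X_mul_mem_lowIdeal {k : Fin r} {f : MvPowerSeries (Fin r) A}
    (h : X k * f ∈ lowIdeal A r k.val) : f ∈ lowIdeal A r k.val := by
  classical
  intro m hm
  have h1 : coeff (Finsupp.single k 1 + m)
      (monomial (Finsupp.single k 1) (1 : A) * f) = 1 * coeff m f :=
    coeff_add_monomial_mul _ _ _ _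
  rw [← X_def, one_mul] at h1
  rw [← h1]
  apply h
  intro j hj
  have hjk : j ≠ k := fun e => by rw [e] at hj; exact lt_irrefl _ hj
  rw [Finsupp.add_apply, hm j hj, Finsupp.single_eq_of_ne hjk]

theorem mem_lowIdeal_top {f : MvPowerSeries (Fin r) A} :
    f ∈ lowIdeal A r r ↔ constantCoeff f = 0 := by
  constructor
  · intro h
    rw [← coeff_zero_eq_constantCoeff_apply]
    exact h 0 (fun _ _ => rfl)
  · intro h m hm
    have : m = 0 := by
      ext j
      exact hm j j.isLt
    rw [this, coeff_zero_eq_constantCoeff_apply, h]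

end Fermat.Agent.S57
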